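/-
GATE-R (S17) / node (D): the descent lemma with CRUDE constants (helper16; idea: helper49 4500,
helper43 4502).

Mathlib's `AddCommGroup.fg_of_descent` needs `a < b` for the SAME `n`.  Here: if ONE `n₀` expands
the height by ANY factor `b > 1` (`b * h x - c₀ ≤ h (n₀ • x)`) and translations distort the height
by ANY factor `a` (`h x ≤ a * h (g + x) + c g`), then `G` is finitely generated as soon as
`G / n₀ G` is finite and `h` has the Northcott property: apply Mathlib's lemma to `n = n₀ ^ k`
with `b ^ k > a`.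

Mathlib-only.
-/
import Mathlib

set_option autoImplicit false

namespace Fermat.Agent.GR.Descent

open AddSubgroup

section FiniteIndex

variable {G : Type*} [AddCommGroup G]

/-- The range of multiplication by `m * n` is the image under `m •` of the range of `n •`. -/
theorem range_nsmul_mul (m n : ℕ) :
    (nsmulAddMonoidHom (α := G) (m * n)).range =
      (nsmulAddMonoidHom (α := G) n).range.map (nsmulAddMonoidHom (α := G) m) := by
  ext x
  constructor
  · rintro ⟨y, rfl⟩
    exact ⟨n • y, ⟨y, rfl⟩, by simp [mul_nsmul, smul_comm m n y]⟩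
  · rintro ⟨_, ⟨y, rfl⟩, rfl⟩
    exact ⟨y, by simp [mul_nsmul, smul_comm m n y]⟩

/-- If `G / m G` and `G / n G` are finite, so is `G / (m n) G`. -/
theorem finiteIndex_range_nsmul_mul {m n : ℕ}
    (hm : (nsmulAddMonoidHom (α := G) m).range.FiniteIndex)
    (hn : (nsmulAddMonoidHom (α := G) n).range.FiniteIndex) :
    (nsmulAddMonoidHom (α := G) (m * n)).range.FiniteIndex := by
  rw [range_nsmul_mul]
  refine ⟨?_⟩
  rw [AddSubgroup.index_map]
  refine mul_ne_zero ?_ hm.index_ne_zero
  have hle : (nsmulAddMonoidHom (α := G) n).range ≤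
      (nsmulAddMonoidHom (α := G) n).range ⊔ (nsmulAddMonoidHom (α := G) m).ker := le_sup_left
  exact (AddSubgroup.finiteIndex_of_le hle).index_ne_zero

/-- If `G / n G` is finite, so is `G / n ^ k G`. -/
theorem finiteIndex_range_nsmul_pow {n : ℕ}
    (hn : (nsmulAddMonoidHom (α := G) n).range.FiniteIndex) (k : ℕ) :
    (nsmulAddMonoidHom (α := G) (n ^ k)).range.FiniteIndex := by
  induction k with
  | zero =>
    have : (nsmulAddMonoidHom (α := G) (n ^ 0)).range = ⊤ := by
      rw [eq_top_iff]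
      intro x _
      exact ⟨x, by simp⟩
    rw [this]
    infer_instance
  | succ k ih =>
    rw [pow_succ]
    exact finiteIndex_range_nsmul_mul ih hn

end FiniteIndex

section Iterate

variable {G : Type*} [AddCommGroup G]

/-- Iterating `b * h x - c₀ ≤ h (n • x)`: for every `k` there is a constant `C` with
`b ^ k * h x - C ≤ h (n ^ k • x)`. -/
theorem exists_const_pow_le {n : ℕ} {h : G → ℝ} {b c₀ : ℝ} (hb : 0 ≤ b)
    (H : ∀ x, b * h x - c₀ ≤ h (n • x)) (k : ℕ) :
    ∃ C : ℝ, ∀ x, b ^ k * h x - C ≤ h (n ^ k • x) := by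
  induction k with
  | zero => exact ⟨0, fun x => by simp⟩
  | succ k ih =>
    obtain ⟨C, hC⟩ := ih
    refine ⟨b * C + c₀, fun x => ?_⟩
    have h1 := hC x
    have h2 := H (n ^ k • x)
    have h3 : n ^ (k + 1) • x = n • (n ^ k • x) := by
      rw [pow_succ, mul_nsmul]
    rw [h3]
    have h4 : b * (b ^ k * h x - C) ≤ b * h (n ^ k • x) := mul_le_mul_of_nonneg_left h1 hb
    have h5 : b ^ (k + 1) * h x - (b * C + c₀) = b * (b ^ k * h x - C) - c₀ := by ring
    rw [h5]
    linarith

end Iterate

/-- **Descent with crude constants.**  Let `G` be a commutative additive group, `n₀ : ℕ` with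
`G / n₀ G` finite, and `h : G → ℝ` a Northcott function such that
* `h x ≤ a * h (g + x) + c g` for all `g x` (ANY constant `a ≥ 0`, constants `c g` depending on `g`),
* `b * h x - c₀ ≤ h (n₀ • x)` for all `x` (ANY `b > 1`).
Then `G` is finitely generated. -/
theorem fg_of_crude_descent {G : Type*} [AddCommGroup G] {n₀ : ℕ} {h : G → ℝ} {a b c₀ : ℝ}
    {c : G → ℝ} (ha : 0 ≤ a) (hb : 1 < b)
    (H₁ : (nsmulAddMonoidHom (α := G) n₀).range.FiniteIndex)
    (H₂ : ∀ g x, h x ≤ a * h (g + x) + c g)
    (H₃ : ∀ x, b * h x - c₀ ≤ h (n₀ • x)) [Northcott h] :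
    AddGroup.FG G := by
  obtain ⟨k, hk⟩ := pow_unbounded_of_one_lt a hb
  obtain ⟨C, hC⟩ := exists_const_pow_le (le_trans zero_le_one hb.le) H₃ k
  exact AddCommGroup.fg_of_descent (n := n₀ ^ k) (b := b ^ k) (c₀ := C) ha hk
    (finiteIndex_range_nsmul_pow H₁ k) H₂ hC

/-- Variant: the translation bound is only required for `g` in a set of representatives, i.e. in
the form `h (x - g) ≤ a * h x + c g`; equivalent to `H₂` of `fg_of_crude_descent`. -/
theorem fg_of_crude_descent' {G : Type*} [AddCommGroup G] {n₀ : ℕ} {h : G → ℝ} {a b c₀ : ℝ}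
    {c : G → ℝ} (ha : 0 ≤ a) (hb : 1 < b)
    (H₁ : (nsmulAddMonoidHom (α := G) n₀).range.FiniteIndex)
    (H₂ : ∀ g x, h (x - g) ≤ a * h x + c g)
    (H₃ : ∀ x, b * h x - c₀ ≤ h (n₀ • x)) [Northcott h] :
    AddGroup.FG G := by
  refine fg_of_crude_descent ha hb H₁ (c := c) (fun g x => ?_) H₃
  have := H₂ g (g + x)
  rwa [add_sub_cancel_left] at this

/-- Variant with an UPPER bound for addition: if `h (x + y) ≤ a * h x + c y` for all `x y`
(e.g. from polynomial addition formulas), then the translation hypothesis holds with the same `a`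
(apply it to `g + x` and `-g`). -/
theorem fg_of_add_le {G : Type*} [AddCommGroup G] {n₀ : ℕ} {h : G → ℝ} {a b c₀ : ℝ}
    {c : G → ℝ} (ha : 0 ≤ a) (hb : 1 < b)
    (H₁ : (nsmulAddMonoidHom (α := G) n₀).range.FiniteIndex)
    (H₂ : ∀ x y, h (x + y) ≤ a * h x + c y)
    (H₃ : ∀ x, b * h x - c₀ ≤ h (n₀ • x)) [Northcott h] :
    AddGroup.FG G := by
  refine fg_of_crude_descent ha hb H₁ (c := fun g => c (-g)) (fun g x => ?_) H₃
  have := H₂ (g + x) (-g)
  rwa [add_neg_cancel_comm] at this

end Fermat.Agent.GR.Descent
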